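import Mathlib

/-!
# S20, package D (helper80): abstract freeness of a graded module over `K[e4, e6]`

Pure linear algebra.  `A` is an ambient commutative `K`-algebra (later: functions `ℍ → ℂ`),
`M k` and `R m` are `K`-submodules of `A` (later: modular forms of weight `k` on `Γ`, resp.
level-one modular forms of weight `m`), and `e4 ∈ R 4`, `e6 ∈ R 6` form a "regular sequence on `M`".
We construct a family `F j ∈ M (wt j)` such that every `f ∈ M k` is *uniquely* a combination
`∑ r j * F j` with `r j ∈ R (k - wt j)`.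
-/

set_option autoImplicit false

namespace Fermat.Agent.S20.H80

open Module

universe u v

/-- Abstract graded data: a graded module `M` over a graded ring `R` (both realised inside an
ambient commutative algebra `A`), where `R` is generated in positive degrees by `e4`, `e6`, and
`(e4, e6)` is a regular sequence on `M`. -/
structure RegData (K : Type u) (A : Type v) [Field K] [CommRing A] [Algebra K A] where
  /-- graded pieces of the module -/
  M : ℤ → Submodule K A
  /-- graded pieces of the ring -/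
  R : ℤ → Submodule K A
  /-- generator of degree 4 -/
  e4 : A
  /-- generator of degree 6 -/
  e6 : A
  M_fin : ∀ k, Module.Finite K (M k)
  R_fin : ∀ m, Module.Finite K (R m)
  M_neg : ∀ k, k < 0 → M k = ⊥
  R_neg : ∀ m, m < 0 → R m = ⊥
  R_zero : R 0 = Submodule.span K {1}
  e4_mem : e4 ∈ R 4
  e6_mem : e6 ∈ R 6
  R_mul : ∀ m n, ∀ r ∈ R m, ∀ s ∈ R n, r * s ∈ R (m + n)
  R_smul : ∀ m k, ∀ r ∈ R m, ∀ f ∈ M k, r * f ∈ M (m + k)
  R_dec : ∀ m, m ≠ 0 → ∀ r ∈ R m, ∃ r4 ∈ R (m - 4), ∃ r6 ∈ R (m - 6), r = e4 * r4 + e6 * r6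
  reg : ∀ k, ∀ a ∈ M (k + 6), ∀ b ∈ M (k + 4), e4 * a = e6 * b →
    ∃ c ∈ M k, a = e6 * c ∧ b = e4 * c

namespace RegData

variable {K : Type u} {A : Type v} [Field K] [CommRing A] [Algebra K A] (D : RegData K A)

/-- The decomposable part `e4 * M (k-4) + e6 * M (k-6)` of `M k`. -/
def dec (k : ℤ) : Submodule K A :=
  (D.M (k - 4)).map (LinearMap.mulLeft K D.e4) ⊔ (D.M (k - 6)).map (LinearMap.mulLeft K D.e6)

theorem mem_dec {k : ℤ} {x : A} :
    x ∈ D.dec k ↔ ∃ a ∈ D.M (k - 4), ∃ b ∈ D.M (k - 6), x = D.e4 * a + D.e6 * b := by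
  constructor
  · intro hx
    obtain ⟨y, hy, z, hz, rfl⟩ := Submodule.mem_sup.mp hx
    obtain ⟨a, ha, rfl⟩ := hy
    obtain ⟨b, hb, rfl⟩ := hz
    exact ⟨a, ha, b, hb, rfl⟩
  · rintro ⟨a, ha, b, hb, rfl⟩
    exact Submodule.add_mem_sup ⟨a, ha, rfl⟩ ⟨b, hb, rfl⟩

theorem e4_mul_mem {k : ℤ} {f : A} (hf : f ∈ D.M k) {k' : ℤ} (hk : k' = k + 4) :
    D.e4 * f ∈ D.M k' := by
  subst hk
  have := D.R_smul 4 k D.e4 D.e4_mem f hf
  rwa [add_comm] at this

theorem e6_mul_mem {k : ℤ} {f : A} (hf : f ∈ D.M k) {k' : ℤ} (hk : k' = k + 6) :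
    D.e6 * f ∈ D.M k' := by
  subst hk
  have := D.R_smul 6 k D.e6 D.e6_mem f hf
  rwa [add_comm] at this

theorem dec_le (k : ℤ) : D.dec k ≤ D.M k := by
  intro x hx
  obtain ⟨a, ha, b, hb, rfl⟩ := D.mem_dec.mp hx
  exact Submodule.add_mem _ (D.e4_mul_mem ha (by ring)) (D.e6_mul_mem hb (by ring))

theorem exists_compl (k : ℤ) :
    ∃ W : Submodule K A, W ≤ D.M k ∧ W ⊓ D.dec k = ⊥ ∧ W ⊔ D.dec k = D.M k := by
  obtain ⟨q, hq⟩ := Submodule.exists_isCompl (D.dec k)
  refine ⟨q ⊓ D.M k, inf_le_right, ?_, ?_⟩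
  · rw [inf_assoc, inf_comm (D.M k), ← inf_assoc, inf_comm q, hq.inf_eq_bot, bot_inf_eq]
  · rw [sup_comm, ← sup_inf_assoc_of_le q (D.dec_le k), hq.sup_eq_top, top_inf_eq]

/-- A chosen complement of the decomposable part in `M k`: the "new" forms of weight `k`. -/
noncomputable def new (k : ℤ) : Submodule K A := (D.exists_compl k).choose

theorem new_le (k : ℤ) : D.new k ≤ D.M k := (D.exists_compl k).choose_spec.1

theorem new_inf_dec (k : ℤ) : D.new k ⊓ D.dec k = ⊥ := (D.exists_compl k).choose_spec.2.1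

theorem new_sup_dec (k : ℤ) : D.new k ⊔ D.dec k = D.M k := (D.exists_compl k).choose_spec.2.2

instance new_finite (k : ℤ) : Module.Finite K (D.new k) := by
  have := D.M_fin k
  exact Module.Finite.of_injective (Submodule.inclusion (D.new_le k))
    (Submodule.inclusion_injective _)

/-- The index type of the free basis: pairs (weight, index of a basis vector of `new k`). -/
abbrev Idx : Type := Σ k : ℤ, Fin (finrank K (D.new k))

/-- Weight of a basis element. -/
def wt (j : D.Idx) : ℤ := j.1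

/-- The basis elements. -/
noncomputable def gen (j : D.Idx) : A := (Module.finBasis K (D.new j.1) j.2 : A)

theorem gen_mem_new (j : D.Idx) : D.gen j ∈ D.new (D.wt j) := Submodule.coe_mem _

theorem gen_mem (j : D.Idx) : D.gen j ∈ D.M (D.wt j) := D.new_le _ (D.gen_mem_new j)

theorem wt_nonneg (j : D.Idx) : 0 ≤ D.wt j := by
  by_contra h
  push Not at h
  obtain ⟨k, i⟩ := j
  have h1 : D.new k = ⊥ := by
    have := D.new_le k
    rw [D.M_neg k h] at this
    exact le_bot_iff.mp this
  have h2 : finrank K (D.new k) = 0 := by rw [h1]; exact finrank_bot K A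
  exact (Fin.cast h2 i).elim0

/-- Coefficient families of weight `k`: finitely supported families `r` with
`r j ∈ R (k - wt j)`. -/
def coeffs (k : ℤ) : Submodule K (D.Idx →₀ A) where
  carrier := {r | ∀ j, r j ∈ D.R (k - D.wt j)}
  add_mem' := fun {r s} hr hs j => by
    simpa using Submodule.add_mem _ (hr j) (hs j)
  zero_mem' := fun j => by simp
  smul_mem' := fun c r hr j => by
    simpa using Submodule.smul_mem _ c (hr j)

theorem mem_coeffs {k : ℤ} {r : D.Idx →₀ A} :
    r ∈ D.coeffs k ↔ ∀ j, r j ∈ D.R (k - D.wt j) := Iff.rfl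

/-- The evaluation map `r ↦ ∑ r j * F j`. -/
noncomputable def ev : (D.Idx →₀ A) →ₗ[A] A := Finsupp.linearCombination A D.gen

theorem ev_apply (r : D.Idx →₀ A) : D.ev r = r.sum fun j a => a * D.gen j := by
  simp [ev, Finsupp.linearCombination_apply]

theorem ev_single (j : D.Idx) (a : A) : D.ev (Finsupp.single j a) = a * D.gen j := by
  simp [ev]

theorem e4_smul_mem_coeffs {k : ℤ} {r : D.Idx →₀ A} (hr : r ∈ D.coeffs k) {k' : ℤ}
    (hk : k' = k + 4) : D.e4 • r ∈ D.coeffs k' := by
  subst hk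
  intro j
  have := D.R_mul 4 (k - D.wt j) D.e4 D.e4_mem (r j) (hr j)
  have h2 : (4 : ℤ) + (k - D.wt j) = k + 4 - D.wt j := by ring
  rw [h2] at this
  simpa using this

theorem e6_smul_mem_coeffs {k : ℤ} {r : D.Idx →₀ A} (hr : r ∈ D.coeffs k) {k' : ℤ}
    (hk : k' = k + 6) : D.e6 • r ∈ D.coeffs k' := by
  subst hk
  intro j
  have := D.R_mul 6 (k - D.wt j) D.e6 D.e6_mem (r j) (hr j)
  have h2 : (6 : ℤ) + (k - D.wt j) = k + 6 - D.wt j := by ring
  rw [h2] at this
  simpa using this

theorem ev_mem {k : ℤ} {r : D.Idx →₀ A} (hr : r ∈ D.coeffs k) : D.ev r ∈ D.M k := by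
  rw [ev_apply]
  refine Submodule.sum_mem _ fun j _ => ?_
  have := D.R_smul (k - D.wt j) (D.wt j) (r j) (hr j) (D.gen j) (D.gen_mem j)
  rwa [sub_add_cancel] at this

theorem filter_mem_coeffs {k : ℤ} {r : D.Idx →₀ A} (hr : r ∈ D.coeffs k) (p : D.Idx → Prop)
    [DecidablePred p] : r.filter p ∈ D.coeffs k := by
  intro j
  by_cases hj : p j
  · rw [Finsupp.filter_apply_pos p r hj]; exact hr j
  · rw [Finsupp.filter_apply_neg p r hj]; exact Submodule.zero_mem _

/-- A coefficient family of weight `k` without components in weight `k` is of the form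
`e4 • p + e6 • q`. -/
theorem exists_dec_coeffs {k : ℤ} (r : D.Idx →₀ A) (hr : r ∈ D.coeffs k)
    (h0 : ∀ j, D.wt j = k → r j = 0) :
    ∃ p ∈ D.coeffs (k - 4), ∃ q ∈ D.coeffs (k - 6), r = D.e4 • p + D.e6 • q := by
  classical
  induction r using Finsupp.induction with
  | zero => exact ⟨0, Submodule.zero_mem _, 0, Submodule.zero_mem _, by simp⟩
  | single_add a b f haf hb ih =>
    have hfa : f a = 0 := Finsupp.notMem_support_iff.mp haf
    have hf : f ∈ D.coeffs k := by
      intro j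
      by_cases hja : j = a
      · subst hja; rw [hfa]; exact Submodule.zero_mem _
      · have := hr j
        rwa [Finsupp.add_apply, Finsupp.single_apply, if_neg (Ne.symm hja), zero_add] at this
    have hf0 : ∀ j, D.wt j = k → f j = 0 := by
      intro j hj
      by_cases hja : j = a
      · subst hja; exact hfa
      · have := h0 j hj
        rwa [Finsupp.add_apply, Finsupp.single_apply, if_neg (Ne.symm hja), zero_add] at this
    obtain ⟨p, hp, q, hq, hpq⟩ := ih hf hf0
    have hba : b ∈ D.R (k - D.wt a) := by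
      have := hr a
      rwa [Finsupp.add_apply, Finsupp.single_apply, if_pos rfl, hfa, add_zero] at this
    have hwa : k - D.wt a ≠ 0 := by
      intro h
      have := h0 a (by linarith)
      rw [Finsupp.add_apply, Finsupp.single_apply, if_pos rfl, hfa, add_zero] at this
      exact hb this
    obtain ⟨x, hx, y, hy, hxy⟩ := D.R_dec _ hwa b hba
    refine ⟨Finsupp.single a x + p, Submodule.add_mem _ ?_ hp,
      Finsupp.single a y + q, Submodule.add_mem _ ?_ hq, ?_⟩
    · intro j
      by_cases hja : a = j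
      · subst hja
        rw [Finsupp.single_apply, if_pos rfl]
        have h2 : k - D.wt a - 4 = k - 4 - D.wt a := by ring
        rwa [h2] at hx
      · rw [Finsupp.single_apply, if_neg hja]; exact Submodule.zero_mem _
    · intro j
      by_cases hja : a = j
      · subst hja
        rw [Finsupp.single_apply, if_pos rfl]
        have h2 : k - D.wt a - 6 = k - 6 - D.wt a := by ring
        rwa [h2] at hy
      · rw [Finsupp.single_apply, if_neg hja]; exact Submodule.zero_mem _
    · rw [hpq, hxy, smul_add, smul_add, Finsupp.smul_single, Finsupp.smul_single,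
        smul_eq_mul, smul_eq_mul, Finsupp.single_add]
      abel

/-- The sum `∑ i, r ⟨k, i⟩ * F ⟨k, i⟩` computes `ev r` when `r` is supported in weight `k`. -/
theorem ev_eq_sum_of_support {k : ℤ} (r : D.Idx →₀ A) (h0 : ∀ j, D.wt j ≠ k → r j = 0) :
    D.ev r = ∑ i : Fin (finrank K (D.new k)), r ⟨k, i⟩ * D.gen ⟨k, i⟩ := by
  classical
  rw [ev_apply, Finsupp.sum]
  have hsub : r.support ⊆ (Finset.univ : Finset (Fin (finrank K (D.new k)))).map
      ⟨fun i => (⟨k, i⟩ : D.Idx), fun i i' h => by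
        simpa using (Sigma.mk.inj_iff.mp h).2⟩ := by
    intro j hj
    have hjk : D.wt j = k := by
      by_contra h
      exact (Finsupp.mem_support_iff.mp hj) (h0 j h)
    obtain ⟨w, i⟩ := j
    have hw : w = k := hjk
    subst hw
    exact Finset.mem_map.mpr ⟨i, Finset.mem_univ _, rfl⟩
  rw [Finset.sum_subset hsub (fun j _ hj => by
    rw [Finsupp.notMem_support_iff.mp hj, zero_mul])]
  rw [Finset.sum_map]
  rfl

theorem ev_mem_new {k : ℤ} (r : D.Idx →₀ A) (hr : r ∈ D.coeffs k)
    (h0 : ∀ j, D.wt j ≠ k → r j = 0) : D.ev r ∈ D.new k := by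
  rw [D.ev_eq_sum_of_support r h0]
  refine Submodule.sum_mem _ fun i _ => ?_
  have h1 := hr ⟨k, i⟩
  have h2 : k - D.wt ⟨k, i⟩ = 0 := sub_self k
  rw [h2, D.R_zero] at h1
  obtain ⟨c, hc⟩ := Submodule.mem_span_singleton.mp h1
  rw [← hc, smul_mul_assoc, one_mul]
  exact Submodule.smul_mem _ c (D.gen_mem_new ⟨k, i⟩)

theorem eq_zero_of_ev_eq_zero_of_support {k : ℤ} (r : D.Idx →₀ A) (hr : r ∈ D.coeffs k)
    (h0 : ∀ j, D.wt j ≠ k → r j = 0) (hev : D.ev r = 0) : r = 0 := by
  classical
  have hc : ∀ i : Fin (finrank K (D.new k)), ∃ c : K, c • (1 : A) = r ⟨k, i⟩ := by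
    intro i
    have h1 := hr ⟨k, i⟩
    have h2 : k - D.wt ⟨k, i⟩ = 0 := sub_self k
    rw [h2, D.R_zero] at h1
    exact Submodule.mem_span_singleton.mp h1
  choose c hc using hc
  have hli : LinearIndependent K (fun i : Fin (finrank K (D.new k)) => D.gen ⟨k, i⟩) := by
    have := (Module.finBasis K (D.new k)).linearIndependent
    exact this.map' (D.new k).subtype (Submodule.ker_subtype _)
  have hsum : ∑ i, c i • D.gen ⟨k, i⟩ = 0 := by
    rw [← hev, D.ev_eq_sum_of_support r h0]
    refine Finset.sum_congr rfl fun i _ => ?_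
    rw [← hc i, smul_mul_assoc, one_mul]
  have hc0 := Fintype.linearIndependent_iff.mp hli c hsum
  ext j
  by_cases hj : D.wt j = k
  · obtain ⟨w, i⟩ := j
    have hw : w = k := hj
    subst hw
    rw [← hc i, hc0 i, zero_smul]; rfl
  · rw [h0 j hj]; rfl

theorem exists_coeffs_of_mem_new {k : ℤ} {w : A} (hw : w ∈ D.new k) :
    ∃ r ∈ D.coeffs k, D.ev r = w := by
  classical
  set b := Module.finBasis K (D.new k) with hb
  refine ⟨∑ i, Finsupp.single (⟨k, i⟩ : D.Idx) (algebraMap K A (b.repr ⟨w, hw⟩ i)),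
    Submodule.sum_mem _ fun i _ => ?_, ?_⟩
  · intro j
    by_cases hj : (⟨k, i⟩ : D.Idx) = j
    · subst hj
      rw [Finsupp.single_apply, if_pos rfl]
      have h2 : k - D.wt ⟨k, i⟩ = 0 := sub_self k
      rw [h2, D.R_zero, Algebra.algebraMap_eq_smul_one]
      exact Submodule.smul_mem _ _ (Submodule.mem_span_singleton_self 1)
    · rw [Finsupp.single_apply, if_neg hj]; exact Submodule.zero_mem _
  · rw [map_sum]
    have h1 : ∀ i, D.ev (Finsupp.single (⟨k, i⟩ : D.Idx) (algebraMap K A (b.repr ⟨w, hw⟩ i))) =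
        (b.repr ⟨w, hw⟩ i) • ((b i : D.new k) : A) := by
      intro i
      rw [ev_single, Algebra.algebraMap_eq_smul_one, smul_mul_assoc, one_mul]
      rfl
    simp_rw [h1]
    have h2 := congrArg (D.new k).subtype (b.sum_repr ⟨w, hw⟩)
    rw [map_sum] at h2
    simpa only [map_smul, Submodule.subtype_apply] using h2

/-- **Generation.** Every element of `M k` is a combination of the basis elements with
coefficients in `R`. -/
theorem exists_coeffs (k : ℤ) {f : A} (hf : f ∈ D.M k) : ∃ r ∈ D.coeffs k, D.ev r = f := by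
  suffices H : ∀ n : ℕ, ∀ k : ℤ, k < n → ∀ f ∈ D.M k, ∃ r ∈ D.coeffs k, D.ev r = f from
    H (k.toNat + 1) k (by omega) f hf
  intro n
  induction n with
  | zero =>
    intro k hk f hf
    rw [D.M_neg k (by simpa using hk)] at hf
    exact ⟨0, Submodule.zero_mem _, by rw [map_zero, (Submodule.mem_bot K).mp hf]⟩
  | succ n ih =>
    intro k hk f hf
    rw [← D.new_sup_dec k] at hf
    obtain ⟨w, hw, d, hd, rfl⟩ := Submodule.mem_sup.mp hf
    obtain ⟨a, ha, b, hb, rfl⟩ := D.mem_dec.mp hd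
    obtain ⟨r0, hr0, h0⟩ := D.exists_coeffs_of_mem_new hw
    obtain ⟨ra, hra, h1⟩ := ih (k - 4) (by push_cast at hk; omega) a ha
    obtain ⟨rb, hrb, h2⟩ := ih (k - 6) (by push_cast at hk; omega) b hb
    refine ⟨r0 + (D.e4 • ra + D.e6 • rb), Submodule.add_mem _ hr0 (Submodule.add_mem _
      (D.e4_smul_mem_coeffs hra (by ring)) (D.e6_smul_mem_coeffs hrb (by ring))), ?_⟩
    rw [map_add, map_add, map_smul, map_smul, h0, h1, h2, smul_eq_mul, smul_eq_mul]

/-- **Independence.** A combination of the basis elements with coefficients in `R` vanishes only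
if all coefficients vanish. -/
theorem eq_zero_of_ev_eq_zero (k : ℤ) {r : D.Idx →₀ A} (hr : r ∈ D.coeffs k)
    (hev : D.ev r = 0) : r = 0 := by
  classical
  suffices H : ∀ n : ℕ, ∀ k : ℤ, k < n → ∀ r ∈ D.coeffs k, D.ev r = 0 → r = 0 from
    H (k.toNat + 1) k (by omega) r hr hev
  intro n
  induction n with
  | zero =>
    intro k hk r hr _
    ext j
    have h1 := hr j
    rw [D.R_neg _ (by have := D.wt_nonneg j; push_cast at hk; omega)] at h1
    simpa using h1
  | succ n ih =>
    intro k hk r hr hev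
    -- split off the weight-`k` part
    set r0 := r.filter (fun j => D.wt j = k) with hr0def
    set r1 := r.filter (fun j => ¬ D.wt j = k) with hr1def
    have hsplit : r0 + r1 = r := Finsupp.filter_add_filter_not r _
    have hr0 : r0 ∈ D.coeffs k := D.filter_mem_coeffs hr _
    have hr1 : r1 ∈ D.coeffs k := D.filter_mem_coeffs hr _
    have h0supp : ∀ j, D.wt j ≠ k → r0 j = 0 := fun j hj =>
      Finsupp.filter_apply_neg _ r hj
    have h1supp : ∀ j, D.wt j = k → r1 j = 0 := fun j hj =>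
      Finsupp.filter_apply_neg _ r (not_not.mpr hj)
    obtain ⟨p, hp, q, hq, hpq⟩ := D.exists_dec_coeffs r1 hr1 h1supp
    have hevp : D.ev p ∈ D.M (k - 4) := D.ev_mem hp
    have hevq : D.ev q ∈ D.M (k - 6) := D.ev_mem hq
    have hev1 : D.ev r1 = D.e4 * D.ev p + D.e6 * D.ev q := by
      rw [hpq, map_add, map_smul, map_smul, smul_eq_mul, smul_eq_mul]
    have hsum : D.ev r0 + D.ev r1 = 0 := by rw [← map_add, hsplit, hev]
    -- the weight-`k` part vanishes
    have hev0 : D.ev r0 = 0 := by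
      have hmem1 : D.ev r0 ∈ D.new k := D.ev_mem_new r0 hr0 h0supp
      have hmem2 : D.ev r0 ∈ D.dec k := by
        have : D.ev r0 = -D.ev r1 := eq_neg_of_add_eq_zero_left hsum
        rw [this, hev1]
        exact Submodule.neg_mem _ (D.mem_dec.mpr ⟨_, hevp, _, hevq, rfl⟩)
      have : D.ev r0 ∈ D.new k ⊓ D.dec k := ⟨hmem1, hmem2⟩
      rw [D.new_inf_dec k] at this
      exact (Submodule.mem_bot K).mp this
    have hr0z : r0 = 0 := D.eq_zero_of_ev_eq_zero_of_support r0 hr0 h0supp hev0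
    -- regularity
    have hrel : D.e4 * D.ev p = D.e6 * (-D.ev q) := by
      have : D.ev r1 = 0 := by rw [hev0, zero_add] at hsum; exact hsum
      rw [hev1] at this
      linear_combination this
    have hp' : D.ev p ∈ D.M (k - 10 + 6) := by
      have : k - 10 + 6 = k - 4 := by ring
      rw [this]; exact hevp
    have hq' : -D.ev q ∈ D.M (k - 10 + 4) := by
      have : k - 10 + 4 = k - 6 := by ring
      rw [this]; exact Submodule.neg_mem _ hevq
    obtain ⟨c, hc, hc1, hc2⟩ := D.reg (k - 10) _ hp' _ hq' hrel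
    obtain ⟨s, hs, hsc⟩ := D.exists_coeffs (k - 10) hc
    have hp0 : p - D.e6 • s = 0 := by
      refine ih (k - 4) (by push_cast at hk; omega) _
        (Submodule.sub_mem _ hp (D.e6_smul_mem_coeffs hs (by ring))) ?_
      rw [map_sub, map_smul, hsc, hc1, smul_eq_mul, sub_self]
    have hq0 : q + D.e4 • s = 0 := by
      refine ih (k - 6) (by push_cast at hk; omega) _
        (Submodule.add_mem _ hq (D.e4_smul_mem_coeffs hs (by ring))) ?_
      rw [map_add, map_smul, hsc, smul_eq_mul, ← hc2]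
      ring
    have hp1 : p = D.e6 • s := sub_eq_zero.mp hp0
    have hq1 : q = -(D.e4 • s) := eq_neg_of_add_eq_zero_left hq0
    rw [← hsplit, hr0z, zero_add, hpq, hp1, hq1, smul_neg, smul_smul, smul_smul,
      mul_comm D.e4 D.e6, add_neg_cancel]

/-! ### Counting -/

instance R_finite (m : ℤ) : Module.Finite K (D.R m) := D.R_fin m

instance M_finite (k : ℤ) : Module.Finite K (D.M k) := D.M_fin k

/-- Embedding of tuples of coefficients (indexed by a finset `S`) into coefficient families. -/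
noncomputable def tupleEmb (S : Finset D.Idx) (k : ℤ) :
    (∀ j : S, D.R (k - D.wt j)) →ₗ[K] (D.Idx →₀ A) :=
  ∑ j : S, ((Finsupp.lsingle (j : D.Idx) : A →ₗ[K] D.Idx →₀ A) ∘ₗ
    (D.R (k - D.wt j)).subtype) ∘ₗ LinearMap.proj j

theorem tupleEmb_apply (S : Finset D.Idx) (k : ℤ) (x : ∀ j : S, D.R (k - D.wt j)) :
    D.tupleEmb S k x = ∑ j : S, Finsupp.single (j : D.Idx) (x j : A) := by
  simp [tupleEmb]

theorem tupleEmb_mem (S : Finset D.Idx) (k : ℤ) (x : ∀ j : S, D.R (k - D.wt j)) :
    D.tupleEmb S k x ∈ D.coeffs k := by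
  classical
  rw [tupleEmb_apply]
  refine Submodule.sum_mem _ fun j _ => ?_
  intro j'
  by_cases hj : (j : D.Idx) = j'
  · subst hj
    rw [Finsupp.single_apply, if_pos rfl]
    exact (x j).2
  · rw [Finsupp.single_apply, if_neg hj]; exact Submodule.zero_mem _

theorem tupleEmb_apply_apply (S : Finset D.Idx) (k : ℤ) (x : ∀ j : S, D.R (k - D.wt j))
    (j : S) : D.tupleEmb S k x (j : D.Idx) = x j := by
  classical
  rw [tupleEmb_apply, Finsupp.finsetSum_apply]
  rw [Finset.sum_eq_single j]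
  · rw [Finsupp.single_apply, if_pos rfl]
  · intro j' _ hj'
    rw [Finsupp.single_apply, if_neg (fun h => hj' (Subtype.ext h))]
  · intro h; exact absurd (Finset.mem_univ j) h

theorem ev_tupleEmb (S : Finset D.Idx) (k : ℤ) (x : ∀ j : S, D.R (k - D.wt j)) :
    D.ev (D.tupleEmb S k x) = ∑ j : S, (x j : A) * D.gen j := by
  rw [tupleEmb_apply, map_sum]
  exact Finset.sum_congr rfl fun j _ => D.ev_single _ _

/-- Evaluation of tuples of coefficients, as a `K`-linear map into `M k`. -/
noncomputable def tupleEv (S : Finset D.Idx) (k : ℤ) :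
    (∀ j : S, D.R (k - D.wt j)) →ₗ[K] D.M k :=
  ((D.ev.restrictScalars K) ∘ₗ D.tupleEmb S k).codRestrict (D.M k)
    (fun x => D.ev_mem (D.tupleEmb_mem S k x))

theorem tupleEv_coe (S : Finset D.Idx) (k : ℤ) (x : ∀ j : S, D.R (k - D.wt j)) :
    (D.tupleEv S k x : A) = ∑ j : S, (x j : A) * D.gen j := by
  rw [← ev_tupleEmb]; rfl

theorem tupleEv_injective (S : Finset D.Idx) (k : ℤ) : Function.Injective (D.tupleEv S k) := by
  refine (injective_iff_map_eq_zero _).mpr fun x hx => ?_
  have h1 : D.ev (D.tupleEmb S k x) = 0 := congrArg Subtype.val hx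
  have h2 := D.eq_zero_of_ev_eq_zero k (D.tupleEmb_mem S k x) h1
  funext j
  have h3 := D.tupleEmb_apply_apply S k x j
  rw [h2] at h3
  exact Subtype.ext h3.symm

theorem sum_finrank_le (S : Finset D.Idx) (k : ℤ) :
    ∑ j ∈ S, finrank K (D.R (k - D.wt j)) ≤ finrank K (D.M k) := by
  have h1 := LinearMap.finrank_le_finrank_of_injective (D.tupleEv_injective S k)
  rw [Module.finrank_pi_fintype] at h1
  rwa [← Finset.sum_coe_sort S (fun j => finrank K (D.R (k - D.wt j)))]

theorem tupleEv_univ_surjective [Fintype D.Idx] (k : ℤ) :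
    Function.Surjective (D.tupleEv Finset.univ k) := by
  classical
  rintro ⟨f, hf⟩
  obtain ⟨r, hr, hrf⟩ := D.exists_coeffs k hf
  refine ⟨fun j => ⟨r j, hr j⟩, Subtype.ext ?_⟩
  rw [tupleEv_coe]
  change ∑ j : (Finset.univ : Finset D.Idx), r j * D.gen j = f
  rw [Finset.sum_coe_sort Finset.univ (fun j => r j * D.gen j), ← hrf, ev_apply,
    Finsupp.sum_fintype _ _ (fun j => zero_mul _)]

theorem finrank_eq_sum [Fintype D.Idx] (k : ℤ) :
    finrank K (D.M k) = ∑ j, finrank K (D.R (k - D.wt j)) := by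
  have e := LinearEquiv.ofBijective (D.tupleEv Finset.univ k)
    ⟨D.tupleEv_injective _ k, D.tupleEv_univ_surjective k⟩
  rw [← e.finrank_eq, Module.finrank_pi_fintype,
    Finset.sum_coe_sort Finset.univ (fun j => finrank K (D.R (k - D.wt j)))]

theorem even_wt (hodd : ∀ k, Odd k → D.M k = ⊥) (j : D.Idx) : Even (D.wt j) := by
  by_contra h
  rw [Int.not_even_iff_odd] at h
  obtain ⟨k, i⟩ := j
  have h1 : D.new k = ⊥ := by
    have := D.new_le k
    rw [hodd k h] at this
    exact le_bot_iff.mp this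
  have h2 : finrank K (D.new k) = 0 := by rw [h1]; exact finrank_bot K A
  exact (Fin.cast h2 i).elim0

/-- Under growth bounds, any finite set of basis elements has at most `μ` members. -/
theorem card_le_of_growth (μ : ℕ) (hodd : ∀ k, Odd k → D.M k = ⊥)
    (hR : ∀ (m : ℤ) (t : ℕ), Even m → 12 * (t : ℤ) ≤ m → t ≤ finrank K (D.R m))
    (hM : ∀ a : ℕ, ∃ c : ℕ, ∀ t : ℕ, finrank K (D.M (a + 12 * t)) ≤ μ * t + c)
    (S : Finset D.Idx) : S.card ≤ μ := by
  by_contra hlt
  push Not at hlt
  set a : ℕ := 2 * S.sup (fun j => (D.wt j).toNat) with ha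
  obtain ⟨c, hc⟩ := hM a
  have key : ∀ t : ℕ, S.card * t ≤ μ * t + c := by
    intro t
    refine le_trans ?_ (hc t)
    refine le_trans ?_ (D.sum_finrank_le S _)
    rw [← smul_eq_mul, ← Finset.sum_const]
    refine Finset.sum_le_sum fun j hj => ?_
    have hj1 : (D.wt j).toNat ≤ S.sup (fun j => (D.wt j).toNat) :=
      Finset.le_sup (f := fun j => (D.wt j).toNat) hj
    have hj2 : D.wt j ≤ a := by
      have := D.wt_nonneg j
      rw [ha]; push_cast; omega
    refine hR _ t ?_ (by omega)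
    have he : Even ((a : ℤ) + 12 * t) := by
      rw [ha]; push_cast
      exact ⟨S.sup (fun j => (D.wt j).toNat) + 6 * t, by ring⟩
    exact he.sub (D.even_wt hodd j)
  have := key (c + 1)
  have h2 : (μ + 1) * (c + 1) ≤ S.card * (c + 1) := Nat.mul_le_mul_right _ hlt
  nlinarith

theorem finite_idx (μ : ℕ) (hodd : ∀ k, Odd k → D.M k = ⊥)
    (hR : ∀ (m : ℤ) (t : ℕ), Even m → 12 * (t : ℤ) ≤ m → t ≤ finrank K (D.R m))
    (hM : ∀ a : ℕ, ∃ c : ℕ, ∀ t : ℕ, finrank K (D.M (a + 12 * t)) ≤ μ * t + c) :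
    Finite D.Idx := by
  by_contra h
  rw [not_finite_iff_infinite] at h
  obtain ⟨S, hS⟩ := Infinite.exists_subset_card_eq D.Idx (μ + 1)
  have := D.card_le_of_growth μ hodd hR hM S
  omega

/-- **Main abstract theorem.** Under the growth bounds there is a finite free basis with at
most `μ` elements, all of even weight. -/
theorem exists_fin_basis (μ : ℕ) (hodd : ∀ k, Odd k → D.M k = ⊥)
    (hR : ∀ (m : ℤ) (t : ℕ), Even m → 12 * (t : ℤ) ≤ m → t ≤ finrank K (D.R m))
    (hM : ∀ a : ℕ, ∃ c : ℕ, ∀ t : ℕ, finrank K (D.M (a + 12 * t)) ≤ μ * t + c) :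
    ∃ (n : ℕ) (wt : Fin n → ℕ) (F : Fin n → A),
      n ≤ μ ∧ (∀ j, Even (wt j)) ∧ (∀ j, F j ∈ D.M (wt j)) ∧
      (∀ k, ∀ f ∈ D.M k, ∃ r : Fin n → A, (∀ j, r j ∈ D.R (k - wt j)) ∧ f = ∑ j, r j * F j) ∧
      (∀ k, ∀ r : Fin n → A, (∀ j, r j ∈ D.R (k - wt j)) → ∑ j, r j * F j = 0 → ∀ j, r j = 0) ∧
      (∀ k, finrank K (D.M k) = ∑ j, finrank K (D.R (k - wt j))) := by
  classical
  have : Finite D.Idx := D.finite_idx μ hodd hR hM
  let _ : Fintype D.Idx := Fintype.ofFinite _
  set n := Fintype.card D.Idx with hn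
  let e : D.Idx ≃ Fin n := Fintype.equivFin _
  have hwt : ∀ j : D.Idx, ((D.wt j).toNat : ℤ) = D.wt j := fun j =>
    Int.toNat_of_nonneg (D.wt_nonneg j)
  refine ⟨n, fun i => (D.wt (e.symm i)).toNat, fun i => D.gen (e.symm i), ?_, ?_, ?_, ?_, ?_, ?_⟩
  · have := D.card_le_of_growth μ hodd hR hM Finset.univ
    simpa [hn] using this
  · intro i
    have := D.even_wt hodd (e.symm i)
    rw [← hwt] at this
    exact (Int.even_coe_nat _).mp this
  · intro i
    rw [hwt]; exact D.gen_mem _
  · intro k f hf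
    obtain ⟨r, hr, hrf⟩ := D.exists_coeffs k hf
    refine ⟨fun i => r (e.symm i), fun i => by rw [hwt]; exact hr _, ?_⟩
    rw [← hrf, ev_apply, Finsupp.sum_fintype _ _ (fun j => zero_mul _)]
    exact (Equiv.sum_comp e.symm (fun j => r j * D.gen j)).symm
  · intro k r hr hsum i
    have hr' : Finsupp.equivFunOnFinite.symm (fun j => r (e j)) ∈ D.coeffs k := by
      intro j
      have := hr (e j)
      rw [hwt, Equiv.symm_apply_apply] at this
      simpa using this
    have hev : D.ev (Finsupp.equivFunOnFinite.symm (fun j => r (e j))) = 0 := by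
      rw [ev_apply, Finsupp.sum_fintype _ _ (fun j => zero_mul _), ← hsum]
      rw [← Equiv.sum_comp e.symm]
      simp
    have := D.eq_zero_of_ev_eq_zero k hr' hev
    have h2 := DFunLike.congr_fun this (e.symm i)
    simpa using h2
  · intro k
    rw [D.finrank_eq_sum k, ← Equiv.sum_comp e.symm]
    refine Finset.sum_congr rfl fun i _ => ?_
    rw [hwt]

end RegData

end Fermat.Agent.S20.H80
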