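import Fermat.Agent.S20.LevelOne
import Fermat.Agent.S20.H80.GradedFree
import Fermat.Prelude.Thm_ModularForm_sturm_bound_Gamma0
import Fermat.Prelude.Thm_CongruenceSubgroup_one_mem_strictPeriods_Gamma0

/-!
# S20, package D (helper80): freeness of `⨁ M_k(Γ₀(N))` over level-one forms, concrete part

We instantiate the abstract theorem of `GradedFree.lean` with `A = ℍ → ℂ`,
`M k =` (functions underlying) modular forms of weight `k` on `Γ₀(N)`,
`R m =` level-one modular forms of weight `m`, `e4 = E₄`, `e6 = E₆`.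
The regularity input (`E₄ A = E₆ B ⇒ A = E₆ C, B = E₄ C`) is a hypothesis here; it is proved in
`Fermat.Agent.S20.H33.Regular` and plugged in in `Main.lean`.
-/

set_option autoImplicit false

open UpperHalfPlane ModularForm CongruenceSubgroup Matrix.SpecialLinearGroup
open scoped MatrixGroups ModularForm Manifold Topology

noncomputable section

namespace Fermat.Agent.S20.H80

open Module Fermat.Agent.S20

/-- Coercion of modular forms to functions, as a linear map. -/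
def mfCoe (Γ : Subgroup (GL (Fin 2) ℝ)) [Γ.HasDetOne] (k : ℤ) :
    ModularForm Γ k →ₗ[ℂ] (ℍ → ℂ) where
  toFun f := ⇑f
  map_add' _ _ := rfl
  map_smul' _ _ := rfl

theorem mfCoe_apply (Γ : Subgroup (GL (Fin 2) ℝ)) [Γ.HasDetOne] (k : ℤ) (f : ModularForm Γ k) :
    mfCoe Γ k f = ⇑f := rfl

theorem mfCoe_injective (Γ : Subgroup (GL (Fin 2) ℝ)) [Γ.HasDetOne] (k : ℤ) :
    Function.Injective (mfCoe Γ k) := fun _ _ h => DFunLike.coe_injective h

/-- The space of functions underlying modular forms of weight `k` on `Γ`. -/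
def mfRange (Γ : Subgroup (GL (Fin 2) ℝ)) [Γ.HasDetOne] (k : ℤ) : Submodule ℂ (ℍ → ℂ) :=
  LinearMap.range (mfCoe Γ k)

theorem mem_mfRange {Γ : Subgroup (GL (Fin 2) ℝ)} [Γ.HasDetOne] {k : ℤ} {u : ℍ → ℂ} :
    u ∈ mfRange Γ k ↔ ∃ f : ModularForm Γ k, ⇑f = u := Iff.rfl

theorem coe_mem_mfRange {Γ : Subgroup (GL (Fin 2) ℝ)} [Γ.HasDetOne] {k : ℤ}
    (f : ModularForm Γ k) : ⇑f ∈ mfRange Γ k := ⟨f, rfl⟩

theorem finrank_mfRange (Γ : Subgroup (GL (Fin 2) ℝ)) [Γ.HasDetOne] (k : ℤ) :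
    finrank ℂ (mfRange Γ k) = finrank ℂ (ModularForm Γ k) :=
  (LinearEquiv.ofInjective (mfCoe Γ k) (mfCoe_injective Γ k)).finrank_eq.symm

/-! ### Sturm bound and finite-dimensionality on `Γ₀(N)` -/

theorem one_mem_strictPeriods_Γ0 (N : ℕ) : (1 : ℝ) ∈ (Γ0 N).strictPeriods :=
  CongruenceSubgroup.one_mem_strictPeriods_Gamma0 N

/-- The `n`-th `q`-expansion coefficient, as a linear functional on modular forms. -/
def coeffLM (N : ℕ) (k : ℤ) (n : ℕ) : ModularForm (Γ0 N) k →ₗ[ℂ] ℂ where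
  toFun f := (qExpansion 1 f).coeff n
  map_add' f g := by
    simp only [FunLike.coe_add]
    rw [ModularForm.qExpansion_add one_pos (one_mem_strictPeriods_Γ0 N) f g, map_add]
  map_smul' c f := by
    have h1 : ⇑(c • f) = c • ⇑f := rfl
    simp only [h1]
    rw [ModularForm.qExpansion_smul one_pos (one_mem_strictPeriods_Γ0 N) c f]
    simp

/-- The Sturm bound for `Γ₀(N)` in weight `k`. -/
def sturmB (N : ℕ) (k : ℤ) : ℕ := (k * (Gamma0 N).index).toNat / 12

/-- The first `sturmB + 1` coefficients. -/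
def coeffsLM (N : ℕ) (k : ℤ) : ModularForm (Γ0 N) k →ₗ[ℂ] (Fin (sturmB N k + 1) → ℂ) :=
  LinearMap.pi fun i => coeffLM N k i

theorem coeffsLM_injective (N : ℕ) [NeZero N] (k : ℤ) : Function.Injective (coeffsLM N k) := by
  refine (injective_iff_map_eq_zero _).mpr fun f hf => ?_
  refine ModularForm.sturm_bound_Gamma0 N f fun n hn => ?_
  have := congrFun hf ⟨n, Nat.lt_succ_of_le hn⟩
  simpa [coeffsLM, coeffLM] using this

instance finiteDimensional_modularForm (N : ℕ) [NeZero N] (k : ℤ) :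
    FiniteDimensional ℂ (ModularForm (Γ0 N) k) :=
  FiniteDimensional.of_injective (coeffsLM N k) (coeffsLM_injective N k)

theorem finrank_modularForm_le (N : ℕ) [NeZero N] (k : ℤ) :
    finrank ℂ (ModularForm (Γ0 N) k) ≤ sturmB N k + 1 := by
  have := LinearMap.finrank_le_finrank_of_injective (coeffsLM_injective N k)
  simpa using this

theorem neg_one_mem_Γ0 (N : ℕ) : (-1 : GL (Fin 2) ℝ) ∈ Γ0 N := by
  refine Subgroup.mem_map.mpr ⟨-1, ?_, ?_⟩
  · rw [Gamma0_mem]
    simp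
  · ext i j
    simp

/-! ### The abstract data -/

/-- The regularity statement: `E₄ A = E₆ B` forces `A = E₆ C`, `B = E₄ C`. -/
def Regular (N : ℕ) : Prop :=
  ∀ (k : ℤ) (A : ModularForm (Γ0 N) (k + 6)) (B : ModularForm (Γ0 N) (k + 4)),
    (∀ τ, E₄ τ * A τ = E₆ τ * B τ) →
      ∃ C : ModularForm (Γ0 N) k, (∀ τ, A τ = E₆ τ * C τ) ∧ (∀ τ, B τ = E₄ τ * C τ)

/-- The graded data attached to modular forms on `Γ₀(N)`. -/
def regData (N : ℕ) [NeZero N] (hreg : Regular N) : RegData ℂ (ℍ → ℂ) where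
  M k := mfRange (Γ0 N) k
  R m := mfRange 𝒮ℒ m
  e4 := ⇑E₄
  e6 := ⇑E₆
  M_fin k := by
    unfold mfRange
    infer_instance
  R_fin m := by
    unfold mfRange
    infer_instance
  M_neg k hk := by
    rw [eq_bot_iff]
    rintro u ⟨f, rfl⟩
    rw [ModularForm.isZero_of_neg_weight hk f]
    exact Submodule.zero_mem _
  R_neg m hm := by
    rw [eq_bot_iff]
    rintro u ⟨f, rfl⟩
    rw [ModularForm.isZero_of_neg_weight hm f]
    exact Submodule.zero_mem _
  R_zero := by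
    apply le_antisymm
    · rintro u ⟨r, rfl⟩
      obtain ⟨c, hc⟩ := levelOne_weight_zero r
      refine Submodule.mem_span_singleton.mpr ⟨c, ?_⟩
      funext τ
      rw [mfCoe_apply, hc τ]
      simp
    · rw [Submodule.span_singleton_le_iff_mem]
      exact ⟨(1 : ModularForm 𝒮ℒ 0), ModularForm.one_coe_eq_one (Γ := 𝒮ℒ)⟩
  e4_mem := coe_mem_mfRange E₄
  e6_mem := coe_mem_mfRange E₆
  R_mul := by
    rintro m n _ ⟨r, rfl⟩ _ ⟨s, rfl⟩
    exact ⟨r.mul s, rfl⟩
  R_smul := by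
    rintro m k _ ⟨r, rfl⟩ _ ⟨f, rfl⟩
    exact ⟨(resLO N r).mul f, rfl⟩
  R_dec := by
    rintro m hm _ ⟨r, rfl⟩
    rcases lt_or_gt_of_ne hm with hneg | hpos
    · refine ⟨0, Submodule.zero_mem _, 0, Submodule.zero_mem _, ?_⟩
      rw [ModularForm.isZero_of_neg_weight hneg r]
      simp
    · obtain ⟨s, t, hst⟩ := levelOne_decomp hpos r
      exact ⟨s, coe_mem_mfRange s, t, coe_mem_mfRange t, funext hst⟩
  reg := by
    rintro k _ ⟨A, rfl⟩ _ ⟨B, rfl⟩ h
    obtain ⟨C, hC1, hC2⟩ := hreg k A B (fun τ => congrFun h τ)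
    exact ⟨C, coe_mem_mfRange C, funext hC1, funext hC2⟩

theorem regData_odd (N : ℕ) [NeZero N] (hreg : Regular N) :
    ∀ k, Odd k → (regData N hreg).M k = ⊥ := by
  intro k hk
  rw [eq_bot_iff]
  rintro u ⟨f, rfl⟩
  rw [ModularForm.eq_zero_of_neg_one_mem (neg_one_mem_Γ0 N) hk f]
  exact Submodule.zero_mem _

theorem regData_R_growth (N : ℕ) [NeZero N] (hreg : Regular N) :
    ∀ (m : ℤ) (t : ℕ), Even m → 12 * (t : ℤ) ≤ m → t ≤ finrank ℂ ((regData N hreg).R m) := by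
  intro m t hm ht
  change t ≤ finrank ℂ (mfRange 𝒮ℒ m)
  rw [finrank_mfRange]
  lift m to ℕ using (by omega)
  rw [finrank_levelOne m (by exact_mod_cast hm)]
  have : t ≤ m / 12 := by omega
  split_ifs <;> omega

theorem regData_M_growth (N : ℕ) [NeZero N] (hreg : Regular N) :
    ∀ a : ℕ, ∃ c : ℕ, ∀ t : ℕ,
      finrank ℂ ((regData N hreg).M (a + 12 * t)) ≤ (Gamma0 N).index * t + c := by
  intro a
  refine ⟨a * (Gamma0 N).index / 12 + 1, fun t => ?_⟩
  change finrank ℂ (mfRange (Γ0 N) _) ≤ _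
  rw [finrank_mfRange]
  refine (finrank_modularForm_le N _).trans ?_
  unfold sturmB
  have h1 : (((a : ℤ) + 12 * t) * ((Gamma0 N).index : ℤ)).toNat =
      a * (Gamma0 N).index + 12 * ((Gamma0 N).index * t) := by
    have h2 : ((a : ℤ) + 12 * t) * ((Gamma0 N).index : ℤ) =
        ((a * (Gamma0 N).index + 12 * ((Gamma0 N).index * t) : ℕ) : ℤ) := by
      push_cast; ring
    rw [h2, Int.toNat_natCast]
  rw [h1, Nat.add_mul_div_left _ _ (by norm_num : 0 < 12)]
  omega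

/-- **Freeness of modular forms on `Γ₀(N)` over level-one forms**, assuming regularity. -/
theorem exists_free_basis_of_regular (N : ℕ) [NeZero N] (hreg : Regular N) :
    ∃ (n : ℕ) (wt : Fin n → ℕ) (F : ∀ j, ModularForm (Γ0 N) (wt j)),
      n ≤ (Gamma0 N).index ∧ (∀ j, Even (wt j)) ∧
      (∀ (k : ℤ) (f : ModularForm (Γ0 N) k), ∃ r : ∀ j, ModularForm 𝒮ℒ (k - wt j),
        ∀ τ, f τ = ∑ j, r j τ * F j τ) ∧
      (∀ (k : ℤ) (r : ∀ j, ModularForm 𝒮ℒ (k - wt j)),
        (∀ τ, ∑ j, r j τ * F j τ = 0) → ∀ j, r j = 0) ∧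
      (∀ k : ℤ, finrank ℂ (ModularForm (Γ0 N) k) =
        ∑ j, finrank ℂ (ModularForm 𝒮ℒ (k - wt j))) := by
  obtain ⟨n, wt, F, hn, heven, hF, hgen, hind, hfin⟩ :=
    (regData N hreg).exists_fin_basis (Gamma0 N).index (regData_odd N hreg)
      (regData_R_growth N hreg) (regData_M_growth N hreg)
  have hF2 : ∀ j, ∃ f : ModularForm (Γ0 N) (wt j), ⇑f = F j := hF
  choose F' hF' using hF2
  refine ⟨n, wt, F', hn, heven, ?_, ?_, ?_⟩
  · intro k f
    obtain ⟨r, hr, hf⟩ := hgen k _ (coe_mem_mfRange f)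
    have hr2 : ∀ j, ∃ s : ModularForm 𝒮ℒ (k - wt j), ⇑s = r j := hr
    choose r' hr' using hr2
    refine ⟨r', fun τ => ?_⟩
    have h1 := congrFun hf τ
    simp only [Finset.sum_apply, Pi.mul_apply] at h1
    rw [h1]
    refine Finset.sum_congr rfl fun j _ => ?_
    rw [← hr' j, ← hF' j]
  · intro k r hr j
    have h0 := hind k (fun j => ⇑(r j)) (fun j => coe_mem_mfRange (r j)) (by
      funext τ
      simp only [Finset.sum_apply, Pi.mul_apply, Pi.zero_apply]
      rw [← hr τ]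
      exact Finset.sum_congr rfl fun j _ => by rw [← hF' j]) j
    exact DFunLike.coe_injective h0
  · intro k
    have h1 := hfin k
    change finrank ℂ (mfRange (Γ0 N) k) = ∑ j, finrank ℂ (mfRange 𝒮ℒ (k - wt j)) at h1
    rw [finrank_mfRange] at h1
    rw [h1]
    exact Finset.sum_congr rfl fun j _ => finrank_mfRange _ _

end Fermat.Agent.S20.H80
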