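import Fermat.Agent.S20.H80.Concrete
import Fermat.Agent.S20.H33.Regular

/-!
# S20, package D (helper80): freeness of `⨁ M_k(Γ₀(N))` over level-one forms — final statement

`exists_free_basis_modularForm`: there are finitely many modular forms `F j` on `Γ₀(N)`
(at most `[SL₂(ℤ) : Γ₀(N)]` of them, of even weights `wt j`) such that every modular form of any
weight `k` on `Γ₀(N)` is uniquely `∑ r j * F j` with `r j` of level one and weight `k - wt j`.
-/

set_option autoImplicit false

open UpperHalfPlane ModularForm CongruenceSubgroup Matrix.SpecialLinearGroup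
open scoped MatrixGroups ModularForm Manifold Topology

namespace Fermat.Agent.S20.H80

open Module Fermat.Agent.S20

/-- Regularity of `(E₄, E₆)` on modular forms for `Γ₀(N)` (proved by helper33). -/
theorem regular (N : ℕ) [NeZero N] : Regular N :=
  fun _ A B h => H33.exists_div_E₄_E₆ A B h

/-- **Package D.** The graded module of modular forms on `Γ₀(N)` is free over the ring of
level-one modular forms, on at most `[SL₂(ℤ) : Γ₀(N)]` generators of even weights. -/
theorem exists_free_basis_modularForm (N : ℕ) [NeZero N] :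
    ∃ (n : ℕ) (wt : Fin n → ℕ) (F : ∀ j, ModularForm (Γ0 N) (wt j)),
      n ≤ (Gamma0 N).index ∧ (∀ j, Even (wt j)) ∧
      (∀ (k : ℤ) (f : ModularForm (Γ0 N) k), ∃ r : ∀ j, ModularForm 𝒮ℒ (k - wt j),
        ∀ τ, f τ = ∑ j, r j τ * F j τ) ∧
      (∀ (k : ℤ) (r : ∀ j, ModularForm 𝒮ℒ (k - wt j)),
        (∀ τ, ∑ j, r j τ * F j τ = 0) → ∀ j, r j = 0) ∧
      (∀ k : ℤ, finrank ℂ (ModularForm (Γ0 N) k) =
        ∑ j, finrank ℂ (ModularForm 𝒮ℒ (k - wt j))) :=
  exists_free_basis_of_regular N (regular N)

end Fermat.Agent.S20.H80
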